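/-
Project S52 (the 3-5 switch), seam [MIN] of `S52/Geom/Seams.lean` (helper17).  Prefix `s52mn_`.

  `s52mn_min : s52mn_Local_stmt → s52_Min_stmt`

The ALGEBRA of [MIN]: clear denominators by `d := a.denom * b.denom` (`d(0) ≠ 0`), pass to the
minimal pair `(A', B')`, `(d⁴ a, d⁶ b) = (g⁴ A', g⁶ B')` (`s52u_exists_min`; `g(0) ≠ 0` because the
fibre at `0` is good), rescale by the constant `d(0)/g(0)`; coprimality from minimality + the LOCAL
statement `s52mn_Local_stmt` (= Néron–Ogg–Shafarevich for the 5-torsion at the places `s = z`,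
`z ∈ ℚ̄`, of `ℚ̄(s)`: the only non-algebraic input); `B :=` the zeros of `a.denom * b.denom * g`,
`μ := λ(c)`.
-/
import Mathlib
import Fermat.Agent.S52.Geom.Seams
import Fermat.Agent.S52.UNIV.Coprime

set_option autoImplicit false

namespace Fermat.Agent.S52

open WeierstrassCurve Polynomial

/-- the local condition at every `z ∈ ℚ̄` (zero entries allowed): some scaling by `(s - z) ^ n`
makes the pair integral with a unit entry. -/
def s52mn_LocalGood (A B : ℚ[X]) : Prop :=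
  ∀ z : s52_Qb, ∃ n : ℕ,
    (A ≠ 0 → 4 * n ≤ rootMultiplicity z (A.map (algebraMap ℚ s52_Qb))) ∧
    (B ≠ 0 → 6 * n ≤ rootMultiplicity z (B.map (algebraMap ℚ s52_Qb))) ∧
    ((A ≠ 0 ∧ rootMultiplicity z (A.map (algebraMap ℚ s52_Qb)) = 4 * n) ∨
      (B ≠ 0 ∧ rootMultiplicity z (B.map (algebraMap ℚ s52_Qb)) = 6 * n))

/-- **the local seam**: 5-torsion rational over `ℚ̄(s)` ⟹ every polynomial scaling of `(a, b)` is
locally good at every `z ∈ ℚ̄`. -/
def s52mn_Local_stmt : Prop :=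
  ∀ a b : RatFunc ℚ, s52_T5 a b → 4 * a ^ 3 + 27 * b ^ 2 ≠ 0 →
    ∀ (lam : RatFunc ℚ) (A B : ℚ[X]), lam ≠ 0 →
      algebraMap ℚ[X] (RatFunc ℚ) A = lam ^ 4 * a → algebraMap ℚ[X] (RatFunc ℚ) B = lam ^ 6 * b →
      s52mn_LocalGood A B

/-- minimal + locally good ⟹ coprime (zero entries allowed). -/
theorem s52mn_coprime {A B : ℚ[X]} (hAB : A ≠ 0 ∨ B ≠ 0) (hmin : s52u_IsMin A B)
    (hloc : s52mn_LocalGood A B) : IsCoprime A B := by
  refine isCoprime_of_prime_dvd (fun h => hAB.elim (fun h' => h' h.1) (fun h' => h' h.2))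
    (fun π hπ hπA hπB => ?_)
  have hirr : Irreducible π := hπ.irreducible
  have hdeg : (π.map (algebraMap ℚ s52_Qb)).degree ≠ 0 := by
    rw [Polynomial.degree_map]
    exact (Polynomial.degree_pos_of_irreducible hirr).ne'
  obtain ⟨z, hz⟩ := IsAlgClosed.exists_root (π.map (algebraMap ℚ s52_Qb)) hdeg
  have hz' : (π.map (algebraMap ℚ s52_Qb)).eval z = 0 := hz
  have hinj : Function.Injective (algebraMap ℚ s52_Qb) := (algebraMap ℚ s52_Qb).injective
  have hpos : ∀ P : ℚ[X], P ≠ 0 → π ∣ P →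
      0 < rootMultiplicity z (P.map (algebraMap ℚ s52_Qb)) := by
    intro P hP hπP
    have hP0 : P.map (algebraMap ℚ s52_Qb) ≠ 0 := (Polynomial.map_ne_zero_iff hinj).2 hP
    rw [Polynomial.rootMultiplicity_pos hP0]
    obtain ⟨P₁, rfl⟩ := hπP
    rw [Polynomial.map_mul, IsRoot.def, eval_mul, hz', zero_mul]
  obtain ⟨n, h4, h6, hn⟩ := hloc z
  have hn1 : 1 ≤ n := by
    rcases hn with ⟨h0, h⟩ | ⟨h0, h⟩
    · have := hpos A h0 hπA
      omega
    · have := hpos B h0 hπB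
      omega
  apply hmin π hirr
  constructor
  · by_cases hA : A = 0
    · rw [hA]; exact dvd_zero _
    · exact s52u_pow_dvd_of_rootMultiplicity hirr hz' 4 A hA (le_trans (by omega) (h4 hA))
  · by_cases hB : B = 0
    · rw [hB]; exact dvd_zero _
    · exact s52u_pow_dvd_of_rootMultiplicity hirr hz' 6 B hB (le_trans (by omega) (h6 hB))

/-- evaluation of a rational function at a non-pole. -/
theorem s52mn_ev_eq (r : RatFunc ℚ) (c : ℚ) :
    s52_ev r c = r.num.eval c / r.denom.eval c := by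
  rw [s52_ev, RatFunc.eval, Polynomial.eval₂_id, Polynomial.eval₂_id]

/-- evaluating a polynomial identity `P = Q · r` in `ℚ(s)` at a non-pole of `r`. -/
theorem s52mn_eval_of_eq {P Q : ℚ[X]} {r : RatFunc ℚ}
    (h : algebraMap ℚ[X] (RatFunc ℚ) P = algebraMap ℚ[X] (RatFunc ℚ) Q * r) (c : ℚ)
    (hd : r.denom.eval c ≠ 0) : P.eval c = Q.eval c * s52_ev r c := by
  have hden : algebraMap ℚ[X] (RatFunc ℚ) r.denom ≠ 0 :=
    (map_ne_zero_iff _ (RatFunc.algebraMap_injective ℚ)).2 (RatFunc.denom_ne_zero r)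
  have hr : algebraMap ℚ[X] (RatFunc ℚ) r.num = r * algebraMap ℚ[X] (RatFunc ℚ) r.denom :=
    (div_eq_iff hden).1 (RatFunc.num_div_denom r)
  have h1 : algebraMap ℚ[X] (RatFunc ℚ) (P * r.denom) =
      algebraMap ℚ[X] (RatFunc ℚ) (Q * r.num) := by
    rw [map_mul, map_mul, h, hr, mul_assoc]
  have h2 : P * r.denom = Q * r.num := RatFunc.algebraMap_injective ℚ h1
  have h3 := congrArg (Polynomial.eval c) h2
  rw [eval_mul, eval_mul] at h3
  rw [s52mn_ev_eq, mul_div_assoc', eq_div_iff hd, h3]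

/-- clearing denominators by `d = a.denom * b.denom`. -/
theorem s52mn_clear (a b : RatFunc ℚ) :
    algebraMap ℚ[X] (RatFunc ℚ) (a.denom ^ 3 * b.denom ^ 4 * a.num) =
      algebraMap ℚ[X] (RatFunc ℚ) ((a.denom * b.denom) ^ 4) * a ∧
    algebraMap ℚ[X] (RatFunc ℚ) (a.denom ^ 6 * b.denom ^ 5 * b.num) =
      algebraMap ℚ[X] (RatFunc ℚ) ((a.denom * b.denom) ^ 6) * b := by
  have hda : algebraMap ℚ[X] (RatFunc ℚ) a.denom ≠ 0 :=
    (map_ne_zero_iff _ (RatFunc.algebraMap_injective ℚ)).2 (RatFunc.denom_ne_zero a)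
  have hdb : algebraMap ℚ[X] (RatFunc ℚ) b.denom ≠ 0 :=
    (map_ne_zero_iff _ (RatFunc.algebraMap_injective ℚ)).2 (RatFunc.denom_ne_zero b)
  have ha : algebraMap ℚ[X] (RatFunc ℚ) a.num = a * algebraMap ℚ[X] (RatFunc ℚ) a.denom :=
    (div_eq_iff hda).1 (RatFunc.num_div_denom a)
  have hb : algebraMap ℚ[X] (RatFunc ℚ) b.num = b * algebraMap ℚ[X] (RatFunc ℚ) b.denom :=
    (div_eq_iff hdb).1 (RatFunc.num_div_denom b)
  constructor
  · simp only [map_mul, map_pow]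
    rw [ha]
    ring
  · simp only [map_mul, map_pow]
    rw [hb]
    ring

/-- **[MIN]** from the local seam. -/
theorem s52mn_min (hloc : s52mn_Local_stmt) : s52_Min_stmt := by
  intro a b hgood hT5
  obtain ⟨hda0, hdb0, hΔ0⟩ := hgood
  classical
  -- notation
  set d : ℚ[X] := a.denom * b.denom with hd
  set A₀ : ℚ[X] := a.denom ^ 3 * b.denom ^ 4 * a.num with hA₀
  set B₀ : ℚ[X] := a.denom ^ 6 * b.denom ^ 5 * b.num with hB₀
  obtain ⟨hA₀K, hB₀K⟩ := s52mn_clear a b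
  have hd0 : d ≠ 0 := mul_ne_zero (RatFunc.denom_ne_zero a) (RatFunc.denom_ne_zero b)
  have hdK : algebraMap ℚ[X] (RatFunc ℚ) d ≠ 0 :=
    (map_ne_zero_iff _ (RatFunc.algebraMap_injective ℚ)).2 hd0
  -- evaluation of `A₀`, `B₀`
  have hA₀ev : ∀ c : ℚ, a.denom.eval c ≠ 0 → A₀.eval c = d.eval c ^ 4 * s52_ev a c := by
    intro c hc
    have := s52mn_eval_of_eq hA₀K c hc
    rwa [eval_pow] at this
  have hB₀ev : ∀ c : ℚ, b.denom.eval c ≠ 0 → B₀.eval c = d.eval c ^ 6 * s52_ev b c := by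
    intro c hc
    have := s52mn_eval_of_eq hB₀K c hc
    rwa [eval_pow] at this
  have hdev : ∀ c : ℚ, a.denom.eval c ≠ 0 → b.denom.eval c ≠ 0 → d.eval c ≠ 0 := by
    intro c h1 h2
    rw [hd, eval_mul]
    exact mul_ne_zero h1 h2
  -- `(a(0), b(0)) ≠ (0, 0)`
  have hab0 : s52_ev a 0 ≠ 0 ∨ s52_ev b 0 ≠ 0 := by
    by_contra hcon
    rw [not_or, not_not, not_not] at hcon
    apply hΔ0
    rw [hcon.1, hcon.2]
    ring
  -- `(A₀, B₀) ≠ (0, 0)`
  have hne₀ : A₀ ≠ 0 ∨ B₀ ≠ 0 := by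
    rcases hab0 with h | h
    · left
      intro h0
      have := hA₀ev 0 hda0
      rw [h0, eval_zero] at this
      exact (mul_ne_zero (pow_ne_zero 4 (hdev 0 hda0 hdb0)) h) this.symm
    · right
      intro h0
      have := hB₀ev 0 hdb0
      rw [h0, eval_zero] at this
      exact (mul_ne_zero (pow_ne_zero 6 (hdev 0 hda0 hdb0)) h) this.symm
  obtain ⟨g, A', B', hg, hA', hB', hmin⟩ := s52u_exists_min A₀ B₀ hne₀
  have hgK : algebraMap ℚ[X] (RatFunc ℚ) g ≠ 0 :=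
    (map_ne_zero_iff _ (RatFunc.algebraMap_injective ℚ)).2 hg
  -- `g(0) ≠ 0`
  have hg0 : g.eval 0 ≠ 0 := by
    intro h0
    have h1 : A₀.eval 0 = 0 := by rw [hA', eval_mul, eval_pow, h0]; ring
    have h2 : B₀.eval 0 = 0 := by rw [hB', eval_mul, eval_pow, h0]; ring
    rw [hA₀ev 0 hda0] at h1
    rw [hB₀ev 0 hdb0] at h2
    rcases hab0 with h | h
    · exact (mul_ne_zero (pow_ne_zero 4 (hdev 0 hda0 hdb0)) h) h1
    · exact (mul_ne_zero (pow_ne_zero 6 (hdev 0 hda0 hdb0)) h) h2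
  -- the scaling `lam' = d / g` and the local condition
  have hA'K : algebraMap ℚ[X] (RatFunc ℚ) A' =
      (algebraMap ℚ[X] (RatFunc ℚ) d / algebraMap ℚ[X] (RatFunc ℚ) g) ^ 4 * a := by
    have h1 : algebraMap ℚ[X] (RatFunc ℚ) g ^ 4 * algebraMap ℚ[X] (RatFunc ℚ) A' =
        algebraMap ℚ[X] (RatFunc ℚ) d ^ 4 * a := by
      rw [← map_pow, ← map_mul, ← hA', hA₀K, map_pow]
    rw [div_pow, div_mul_eq_mul_div, eq_div_iff (pow_ne_zero _ hgK), ← h1]
    ring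
  have hB'K : algebraMap ℚ[X] (RatFunc ℚ) B' =
      (algebraMap ℚ[X] (RatFunc ℚ) d / algebraMap ℚ[X] (RatFunc ℚ) g) ^ 6 * b := by
    have h1 : algebraMap ℚ[X] (RatFunc ℚ) g ^ 6 * algebraMap ℚ[X] (RatFunc ℚ) B' =
        algebraMap ℚ[X] (RatFunc ℚ) d ^ 6 * b := by
      rw [← map_pow, ← map_mul, ← hB', hB₀K, map_pow]
    rw [div_pow, div_mul_eq_mul_div, eq_div_iff (pow_ne_zero _ hgK), ← h1]
    ring
  have hΔK : 4 * a ^ 3 + 27 * b ^ 2 ≠ 0 := by
    intro h0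
    apply hΔ0
    -- evaluate at `0`
    have h1 : (4 : RatFunc ℚ) * (algebraMap ℚ[X] (RatFunc ℚ) A₀) ^ 3 +
        27 * (algebraMap ℚ[X] (RatFunc ℚ) B₀) ^ 2 = 0 := by
      rw [hA₀K, hB₀K]
      have : (4 : RatFunc ℚ) * (algebraMap ℚ[X] (RatFunc ℚ) (d ^ 4) * a) ^ 3 +
          27 * (algebraMap ℚ[X] (RatFunc ℚ) (d ^ 6) * b) ^ 2 =
          algebraMap ℚ[X] (RatFunc ℚ) d ^ 12 * (4 * a ^ 3 + 27 * b ^ 2) := by
        rw [map_pow, map_pow]; ring
      rw [this, h0, mul_zero]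
    have h2 : (4 : ℚ[X]) * A₀ ^ 3 + 27 * B₀ ^ 2 = 0 := by
      apply RatFunc.algebraMap_injective ℚ
      rw [map_add, map_mul, map_mul, map_pow, map_pow, map_zero, map_ofNat, map_ofNat]
      exact h1
    have h3 := congrArg (Polynomial.eval 0) h2
    rw [eval_add, eval_mul, eval_mul, eval_pow, eval_pow, eval_ofNat, eval_ofNat, eval_zero,
      hA₀ev 0 hda0, hB₀ev 0 hdb0] at h3
    have h12 : d.eval 0 ^ 12 ≠ 0 := pow_ne_zero 12 (hdev 0 hda0 hdb0)
    have h4 : d.eval 0 ^ 12 * (4 * s52_ev a 0 ^ 3 + 27 * s52_ev b 0 ^ 2) = 0 := by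
      linear_combination h3
    exact (mul_eq_zero.1 h4).resolve_left h12
  have hne' : A' ≠ 0 ∨ B' ≠ 0 := by
    rcases hne₀ with h | h
    · left; rintro rfl; exact h (by rw [hA', mul_zero])
    · right; rintro rfl; exact h (by rw [hB', mul_zero])
  have hcop' : IsCoprime A' B' :=
    s52mn_coprime hne' hmin (hloc a b hT5 hΔK _ A' B' (div_ne_zero hdK hgK) hA'K hB'K)
  -- the constant
  set l₀ : ℚ := d.eval 0 / g.eval 0 with hl₀
  have hl₀0 : l₀ ≠ 0 := div_ne_zero (hdev 0 hda0 hdb0) hg0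
  -- evaluation of `A'`, `B'`
  have hA'ev : ∀ c : ℚ, a.denom.eval c ≠ 0 → g.eval c ≠ 0 →
      A'.eval c = (d.eval c / g.eval c) ^ 4 * s52_ev a c := by
    intro c hc hgc
    have h1 : A₀.eval c = g.eval c ^ 4 * A'.eval c := by rw [hA', eval_mul, eval_pow]
    rw [hA₀ev c hc] at h1
    rw [div_pow, div_mul_eq_mul_div, eq_div_iff (pow_ne_zero _ hgc), h1]
    ring
  have hB'ev : ∀ c : ℚ, b.denom.eval c ≠ 0 → g.eval c ≠ 0 →
      B'.eval c = (d.eval c / g.eval c) ^ 6 * s52_ev b c := by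
    intro c hc hgc
    have h1 : B₀.eval c = g.eval c ^ 6 * B'.eval c := by rw [hB', eval_mul, eval_pow]
    rw [hB₀ev c hc] at h1
    rw [div_pow, div_mul_eq_mul_div, eq_div_iff (pow_ne_zero _ hgc), h1]
    ring
  refine ⟨C (-48 * (l₀⁻¹) ^ 4) * A', C (-864 * (l₀⁻¹) ^ 6) * B',
    (a.denom * b.denom * g).roots.toFinset, ?_, ?_, ?_, ?_, ?_⟩
  · rw [coeff_zero_eq_eval_zero, eval_mul, eval_C, hA'ev 0 hda0 hg0, ← hl₀]
    field_simp
  · rw [coeff_zero_eq_eval_zero, eval_mul, eval_C, hB'ev 0 hdb0 hg0, ← hl₀]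
    field_simp
  · have hu4 : IsUnit (C (-48 * (l₀⁻¹) ^ 4) : ℚ[X]) :=
      Polynomial.isUnit_C.2 (isUnit_iff_ne_zero.2
        (mul_ne_zero (by norm_num) (pow_ne_zero _ (inv_ne_zero hl₀0))))
    have hu6 : IsUnit (C (-864 * (l₀⁻¹) ^ 6) : ℚ[X]) :=
      Polynomial.isUnit_C.2 (isUnit_iff_ne_zero.2
        (mul_ne_zero (by norm_num) (pow_ne_zero _ (inv_ne_zero hl₀0))))
    exact (isCoprime_mul_unit_left_left hu4 _ _).2
      ((isCoprime_mul_unit_left_right hu6 _ _).2 hcop')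
  · refine ⟨algebraMap ℚ[X] (RatFunc ℚ) d / algebraMap ℚ[X] (RatFunc ℚ) g *
      algebraMap ℚ[X] (RatFunc ℚ) (C l₀⁻¹), ?_, ?_, ?_⟩
    · refine mul_ne_zero (div_ne_zero hdK hgK) ?_
      exact (map_ne_zero_iff _ (RatFunc.algebraMap_injective ℚ)).2
        (fun h => inv_ne_zero hl₀0 (Polynomial.C_eq_zero.1 h))
    · rw [map_mul, hA'K, mul_pow, ← map_pow, ← C_pow, C_mul, map_mul]
      have : algebraMap ℚ[X] (RatFunc ℚ) (C (-48 : ℚ)) = -48 := by
        rw [RatFunc.algebraMap_C, map_neg, map_ofNat]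
      rw [this]
      ring
    · rw [map_mul, hB'K, mul_pow, ← map_pow, ← C_pow, C_mul, map_mul]
      have : algebraMap ℚ[X] (RatFunc ℚ) (C (-864 : ℚ)) = -864 := by
        rw [RatFunc.algebraMap_C, map_neg, map_ofNat]
      rw [this]
      ring
  · intro c hc
    have hpoly : a.denom * b.denom * g ≠ 0 := mul_ne_zero hd0 hg
    have hcne : (a.denom * b.denom * g).eval c ≠ 0 := by
      intro h0
      apply hc
      rw [Multiset.mem_toFinset, mem_roots hpoly]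
      exact h0
    rw [eval_mul, eval_mul] at hcne
    have hdac : a.denom.eval c ≠ 0 := left_ne_zero_of_mul (left_ne_zero_of_mul hcne)
    have hdbc : b.denom.eval c ≠ 0 := right_ne_zero_of_mul (left_ne_zero_of_mul hcne)
    have hgc : g.eval c ≠ 0 := right_ne_zero_of_mul hcne
    refine ⟨hdac, hdbc, d.eval c / g.eval c * l₀⁻¹,
      mul_ne_zero (div_ne_zero (hdev c hdac hdbc) hgc) (inv_ne_zero hl₀0), ?_, ?_⟩
    · rw [eval_mul, eval_C, hA'ev c hdac hgc]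
      ring
    · rw [eval_mul, eval_C, hB'ev c hdbc hgc]
      ring

end Fermat.Agent.S52
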