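/-
Project S52 (the 3-5 switch), seam [MIN], the LOCAL statement (helper17).  Prefix `s52mn_`.

  `s52mn_local : s52mn_Bridge_stmt → s52mn_Local_stmt`

`s52mn_Local_stmt` (MIN/Main.lean) = Néron–Ogg–Shafarevich for the 5-torsion at every place `s = z`,
`z ∈ ℚ̄`.  It is helper10's local step `s52c_local` ([COP], via [NOS-5]) applied to the scaling
`lam := (X - z) ^ n`, `n` maximal; the only input left is the bridge between the two vocabularies
for `E[5] rational over ℚ̄(s)` (`s52_T5` ⟶ 25 points over `RatFunc ℚ̄`, after clearing denominators):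
`s52mn_Bridge_stmt` (= helper3's `s52tf_T5_scale` + `s52tf_T5_poly`).
-/
import Mathlib
import Fermat.Agent.S52.MIN.Main
import Fermat.Agent.S52.COP.Main

set_option autoImplicit false

namespace Fermat.Agent.S52

open WeierstrassCurve WeierstrassCurve.Affine Polynomial
open scoped WeierstrassCurve.Affine

/-- **the vocabulary bridge** `V1 → V2` for a polynomial scaling of a `T5`-family. -/
def s52mn_Bridge_stmt : Prop :=
  ∀ [DecidableEq (RatFunc s52_Qb)] (a b : RatFunc ℚ), s52_T5 a b → 4 * a ^ 3 + 27 * b ^ 2 ≠ 0 →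
    ∀ (lam : RatFunc ℚ) (A B : ℚ[X]), lam ≠ 0 →
      algebraMap ℚ[X] (RatFunc ℚ) A = lam ^ 4 * a → algebraMap ℚ[X] (RatFunc ℚ) B = lam ^ 6 * b →
      25 ≤ Nat.card
        {P : (s52n_short (s52c_iota A) (s52c_iota B)).toAffine.Point // 5 • P = 0}

/-- the local step of [COP] in `rootMultiplicity` form: `n` maximal with `(X - z)^{4n} ∣ A`,
`(X - z)^{6n} ∣ B` has `ord A = 4 n` or `ord B = 6 n`. -/
theorem s52mn_localGood_of_card [DecidableEq (RatFunc s52_Qb)] (A B : ℚ[X])
    (hΔ : 4 * A ^ 3 + 27 * B ^ 2 ≠ 0)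
    (h25 : 25 ≤ Nat.card
      {P : (s52n_short (s52c_iota A) (s52c_iota B)).toAffine.Point // 5 • P = 0}) :
    s52mn_LocalGood A B := by
  classical
  intro z
  set φ := algebraMap ℚ s52_Qb with hφ
  have hφinj : Function.Injective (Polynomial.map φ) :=
    Polynomial.map_injective φ φ.injective
  set Am := A.map φ with hAm
  set Bm := B.map φ with hBm
  have hAm0 : A ≠ 0 → Am ≠ 0 := fun h h0 => h (hφinj (h0.trans (Polynomial.map_zero φ).symm))
  have hBm0 : B ≠ 0 → Bm ≠ 0 := fun h h0 => h (hφinj (h0.trans (Polynomial.map_zero φ).symm))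
  have hAB : A ≠ 0 ∨ B ≠ 0 := by
    by_contra hcon
    rw [not_or, not_not, not_not] at hcon
    apply hΔ
    rw [hcon.1, hcon.2]
    ring
  have hΔm : 4 * Am ^ 3 + 27 * Bm ^ 2 ≠ 0 := by
    intro h0
    apply hΔ
    apply hφinj
    rw [Polynomial.map_zero, ← h0]
    simp only [Polynomial.map_add, Polynomial.map_mul, Polynomial.map_pow,
      Polynomial.map_ofNat, hAm, hBm]
  have h25' : 25 ≤ Nat.card
      {P : ((s52n_short Am Bm)⁄(RatFunc s52_Qb)).Point // 5 • P = 0} := by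
    have hW : ((s52n_short Am Bm)⁄(RatFunc s52_Qb)) =
        s52n_short (s52c_iota A) (s52c_iota B) := s52n_short_map _ _ _
    rw [hW]
    exact h25
  set π : s52_Qb[X] := X - C z with hπ
  have hπ0 : π ≠ 0 := X_sub_C_ne_zero z
  let P : ℕ → Prop := fun n => π ^ (4 * n) ∣ Am ∧ π ^ (6 * n) ∣ Bm
  set N := rootMultiplicity z Am + rootMultiplicity z Bm with hN
  have hP0 : P 0 := ⟨by simp, by simp⟩
  have hbound : ∀ n, P n → (A ≠ 0 → 4 * n ≤ rootMultiplicity z Am) ∧
      (B ≠ 0 → 6 * n ≤ rootMultiplicity z Bm) := by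
    intro n hn
    exact ⟨fun h => (le_rootMultiplicity_iff (hAm0 h)).2 hn.1,
      fun h => (le_rootMultiplicity_iff (hBm0 h)).2 hn.2⟩
  have hle : ∀ n, P n → n ≤ N := by
    intro n hn
    rcases hAB with h | h
    · have := (hbound n hn).1 h
      omega
    · have := (hbound n hn).2 h
      omega
  set n₀ := Nat.findGreatest P N with hn₀
  have hPn₀ : P n₀ := Nat.findGreatest_spec (P := P) (Nat.zero_le N) hP0
  refine ⟨n₀, (hbound n₀ hPn₀).1, (hbound n₀ hPn₀).2, ?_⟩
  by_contra hcon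
  rw [not_or, not_and, not_and] at hcon
  obtain ⟨A', hA'⟩ := hPn₀.1
  obtain ⟨B', hB'⟩ := hPn₀.2
  -- `A'(z) = 0`
  have hroot : ∀ (Q Q' : s52_Qb[X]) (m : ℕ), Q = π ^ m * Q' →
      (Q ≠ 0 → m ≤ rootMultiplicity z Q ∧ rootMultiplicity z Q ≠ m) → Q'.eval z = 0 := by
    intro Q Q' m hQ hm
    by_cases hQ0 : Q = 0
    · have : Q' = 0 := by
        rw [hQ0] at hQ
        rcases mul_eq_zero.1 hQ.symm with h | h
        · exact absurd h (pow_ne_zero _ hπ0)
        · exact h
      rw [this, eval_zero]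
    · obtain ⟨h1, h2⟩ := hm hQ0
      have h3 : m + 1 ≤ rootMultiplicity z Q := by omega
      have h4 : π ^ (m + 1) ∣ Q := (le_rootMultiplicity_iff hQ0).1 h3
      rw [hQ, pow_succ, mul_dvd_mul_iff_left (pow_ne_zero _ hπ0)] at h4
      exact dvd_iff_isRoot.1 h4
  have hA'z : A'.eval z = 0 := by
    apply hroot Am A' (4 * n₀) hA'
    intro h
    have hA0 : A ≠ 0 := by
      rintro rfl
      exact h (Polynomial.map_zero φ)
    exact ⟨(hbound n₀ hPn₀).1 hA0, hcon.1 hA0⟩
  have hB'z : B'.eval z = 0 := by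
    apply hroot Bm B' (6 * n₀) hB'
    intro h
    have hB0 : B ≠ 0 := by
      rintro rfl
      exact h (Polynomial.map_zero φ)
    exact ⟨(hbound n₀ hPn₀).2 hB0, hcon.2 hB0⟩
  have hloc := s52c_local (k := s52_Qb) Am Bm (π ^ n₀) A' B' (pow_ne_zero _ hπ0)
    (by rw [hA', ← pow_mul, mul_comm n₀ 4]) (by rw [hB', ← pow_mul, mul_comm n₀ 6]) hΔm h25' z
    hA'z hB'z
  have hPsucc : P (n₀ + 1) := by
    constructor
    · obtain ⟨r, hr⟩ := hloc.1
      exact ⟨r, by rw [hA', hr, hπ]; ring⟩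
    · obtain ⟨r, hr⟩ := hloc.2
      exact ⟨r, by rw [hB', hr, hπ]; ring⟩
  have := Nat.le_findGreatest (P := P) (hle _ hPsucc) hPsucc
  omega

/-- **the local seam of [MIN]**, from the vocabulary bridge. -/
theorem s52mn_local (hbr : s52mn_Bridge_stmt) : s52mn_Local_stmt := by
  classical
  intro a b hT5 hΔ lam A B hlam hA hB
  have h25 := hbr a b hT5 hΔ lam A B hlam hA hB
  refine s52mn_localGood_of_card A B ?_ h25
  intro h0
  apply hΔ
  have h12 : lam ^ 12 ≠ 0 := pow_ne_zero 12 hlam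
  have h1 : lam ^ 12 * (4 * a ^ 3 + 27 * b ^ 2) = 0 := by
    have h2 := congrArg (algebraMap ℚ[X] (RatFunc ℚ)) h0
    simp only [map_add, map_mul, map_pow, map_ofNat, map_zero, hA, hB] at h2
    rw [← h2]
    ring
  rcases mul_eq_zero.1 h1 with h | h
  · exact absurd h h12
  · exact h

end Fermat.Agent.S52
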